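import Fermat.Agent.CMTwist.Twist
import Fermat.Agent.CMTorsionAllOrders.Frobenius
import Fermat.Agent.CMDivisibility.Main
import Fermat.Agent.IsogenyNF.Cyclotomic
import Fermat.Agent.SerreCurve.SquareRootAction

/-!
# Consequences of the twist

Over a field without `√D` no `n ≥ 3` has all its points rational; a rational point of odd prime
order `p` puts the `p`-th roots of unity in the field with `√D` adjoined; so in odd degree
`ℚ(√D) = ℚ(√-p)`.
-/

set_option autoImplicit false
set_option linter.style.haveILetI false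
set_option linter.unusedSectionVars false

noncomputable section

open WeierstrassCurve NumberField Module FA.IsogenyNF FA.CMFields
open scoped WeierstrassCurve.Affine Classical

local notation "Qb" => AlgebraicClosure ℚ
local notation "GQ" => AlgebraicClosure ℚ ≃ₐ[ℚ] AlgebraicClosure ℚ

namespace FA.CMTwist

/-- An algebraic number outside `F` is moved by an automorphism over `F`. -/
theorem exists_moving {F : IntermediateField ℚ Qb} {s : Qb} (hsF : s ∉ F) :
    ∃ σ : Qb ≃ₐ[F] Qb, σ s ≠ s := by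
  haveI : IsGalois ℚ Qb := FA.EC.isGalois_algebraicClosure
  by_contra h
  push Not at h
  refine hsF ?_
  rw [← InfiniteGalois.fixedField_fixingSubgroup F, IntermediateField.mem_fixedField_iff]
  intro g hg
  rw [IntermediateField.mem_fixingSubgroup_iff] at hg
  exact h (AlgEquiv.ofRingEquiv (f := g.toRingEquiv) fun z => hg z z.2)

variable (F : IntermediateField ℚ Qb) [FiniteDimensional ℚ F] (E : WeierstrassCurve F)
  [E.IsElliptic] (ψ : F →+* ℂ) {D d f : ℤ} (hD : D < 0) (hDdf : D = d * f ^ 2) {L : PeriodPair}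
  (h2 : L.g₂ = ψ E.c₄ / 12) (h3 : L.g₃ = ψ E.c₆ / 216) (hring : IsMultiplierRing L D) {s : Qb}
  (hs : s ^ 2 = (d : Qb))
include hD hDdf h2 h3 hring hs

/-- **No full level above two without `√d`.** -/
theorem mem_of_full_level {n : ℕ} (hn : 3 ≤ n)
    (hfix : ∀ (σ : Qb ≃ₐ[F] Qb) (Q : (E.toAffine⁄Qb).Point), n • Q = 0 → σ • Q = Q) :
    s ∈ F := by
  by_contra hsF
  haveI : Algebra.IsAlgebraic F Qb := Algebra.IsAlgebraic.tower_top (K := ℚ) F
  obtain ⟨θ, t, m, -, -, -, htw, hfaith⟩ := exists_action_twist (Kb := Qb) E ψ hD hDdf h2 h3 hring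
    hs (show n ≠ 0 by omega)
  obtain ⟨σ, hσ⟩ := exists_moving hsF
  obtain ⟨-, h2n⟩ := hfaith (-t) 2 fun P hP => by
    have h := htw σ hσ P
    rw [hfix σ P hP, hfix σ (θ P) (by rw [← map_nsmul, hP, map_zero]), eq_sub_iff_add_eq] at h
    rw [two_zsmul, h, neg_zsmul, neg_add_cancel]
  have := Int.le_of_dvd two_pos h2n
  omega

/-- **A rational point of prime order puts the roots of unity into `F (√d)`.** -/
theorem root_fixed (hsF : s ∉ F) {p : ℕ} (hp : p.Prime) {Q : (E.toAffine⁄Qb).Point}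
    (hQ : addOrderOf Q = p) (hfixQ : ∀ σ : Qb ≃ₐ[F] Qb, σ • Q = Q) {σ : Qb ≃ₐ[F] Qb}
    (hσs : σ s = s) {μ : Qb} (hμ : μ ^ p = 1) : σ μ = μ := by
  haveI : Algebra.IsAlgebraic F Qb := Algebra.IsAlgebraic.tower_top (K := ℚ) F
  haveI : NumberField F := { }
  haveI := Fact.mk hp
  obtain ⟨θ, t, m, -, hθθ, hact, htw, -⟩ := exists_action_twist (Kb := Qb) E ψ hD hDdf h2 h3 hring
    hs hp.ne_zero
  obtain ⟨τ, hτ⟩ := exists_moving hsF
  obtain ⟨-, α, k, hαk⟩ := hact σ hσs
  have hpQ : p • Q = 0 := hQ ▸ addOrderOf_nsmul_eq_zero Q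
  have hord : ∀ z : ℤ, z • Q = 0 → (p : ℤ) ∣ z := fun z hz =>
    hQ ▸ addOrderOf_dvd_iff_zsmul_eq_zero.mpr hz
  have hzero : ∀ (z : ℤ) (R : (E.toAffine⁄Qb).Point), (p : ℤ) ∣ z → p • R = 0 → z • R = 0 := by
    rintro z R ⟨w, rfl⟩ hR
    rw [mul_comm, mul_zsmul, natCast_zsmul, hR, zsmul_zero]
  have hθp : ∀ R : (E.toAffine⁄Qb).Point, p • R = 0 → p • θ R = 0 := fun R hR => by
    rw [← map_nsmul, hR, map_zero]
  have hσQ : α • Q + k • θ Q = Q := (hαk Q hpQ).symm.trans (hfixQ σ)
  -- the power of `σ` is trivial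
  have key : ∀ P : (E.toAffine⁄Qb).Point, p • P = 0 → (σ ^ p) • P = P := by
    by_cases hl : ∃ l : ℤ, θ Q = l • Q
    · obtain ⟨l, hl⟩ := hl
      have h1 : (p : ℤ) ∣ 2 * l - t := by
        refine hord _ ?_
        have h := htw τ hτ Q
        rw [hfixQ τ, hl, Affine.Point.algEquiv_smul_def, map_zsmul,
          ← Affine.Point.algEquiv_smul_def, hfixQ τ, eq_sub_iff_add_eq] at h
        rw [sub_zsmul, ← h]
        module
      have h2' : (p : ℤ) ∣ l * l - t * l + m := by
        refine hord _ ?_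
        have h := hθθ Q hpQ
        rw [hl, map_zsmul, hl, eq_sub_iff_add_eq] at h
        rw [add_zsmul, sub_zsmul, mul_zsmul, mul_zsmul, ← h]
        abel
      have h3' : (p : ℤ) ∣ α + k * l - 1 := by
        refine hord _ ?_
        rw [hl] at hσQ
        rw [sub_zsmul, add_zsmul, mul_zsmul, hσQ, one_zsmul, add_neg_cancel]
      intro P hP
      obtain ⟨N, hN⟩ : ∃ N, θ P - l • P = N := ⟨_, rfl⟩
      have hNp : p • N = 0 := by rw [← hN, nsmul_sub, hθp P hP, smul_comm, hP, smul_zero, sub_zero]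
      have hσP : σ • P = P + k • N := by
        rw [hαk P hP, show P + k • N = α • P + k • θ P - (α + k * l - 1) • P by
          rw [← hN]; module, hzero _ P h3' hP, sub_zero]
      have hθN : θ N = l • N := by
        rw [← hN, map_sub, map_zsmul, hθθ P hP, ← sub_eq_zero]
        have e1 := hzero (t - 2 * l) (θ P) (by
          rw [show t - 2 * l = -(2 * l - t) by ring]; exact dvd_neg.mpr h1) (hθp P hP)
        have e2 := hzero (l * l - m) P (by
          rw [show l * l - m = l * (2 * l - t) - (l * l - t * l + m) by ring]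
          exact dvd_sub (dvd_mul_of_dvd_right h1 _) h2') hP
        calc t • θ P - m • P - l • θ P - l • (θ P - l • P)
            = (t - 2 * l) • θ P + (l * l - m) • P := by module
          _ = 0 := by rw [e1, e2, add_zero]
      have hσN : σ • N = N := by
        rw [hαk N hNp, hθN, show α • N + k • l • N = N + (α + k * l - 1) • N by module,
          hzero _ N h3' hNp, add_zero]
      suffices h : ∀ j : ℕ, (σ ^ j) • P = P + ((j : ℤ) * k) • N by
        rw [h p, hzero _ N (dvd_mul_right _ _) hNp, add_zero]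
      intro j
      induction j with
      | zero => rw [pow_zero, one_smul, Nat.cast_zero, zero_mul, zero_zsmul, add_zero]
      | succ j ih =>
        rw [pow_succ', mul_smul, ih, Affine.Point.algEquiv_smul_def, map_add, map_zsmul,
          ← Affine.Point.algEquiv_smul_def, ← Affine.Point.algEquiv_smul_def, hσP, hσN,
          Nat.cast_succ, add_mul, one_mul, add_zsmul]
        abel
    · push Not at hl
      have hk : (p : ℤ) ∣ k := by
        by_contra hk
        obtain ⟨a, b, hab⟩ := ((Int.prime_iff_natAbs_prime.mpr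
          (by simpa using hp)).coprime_iff_not_dvd.mpr hk)
        refine hl (b * (1 - α)) ?_
        have e : θ Q = (a * (p : ℤ) + b * k) • θ Q := by rw [hab, one_zsmul]
        rw [e, add_zsmul, hzero (a * p) _ (dvd_mul_left _ _) (hθp Q hpQ), zero_add, mul_zsmul,
          mul_zsmul, sub_zsmul, one_zsmul, eq_sub_of_add_eq' hσQ, sub_eq_add_neg]
      have hα : (p : ℤ) ∣ α - 1 := by
        refine hord _ ?_
        rw [hzero k _ hk (hθp Q hpQ), add_zero] at hσQ
        rw [sub_zsmul, hσQ, one_zsmul, add_neg_cancel]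
      intro P hP
      have hσP : σ • P = P := by
        rw [hαk P hP, hzero k _ hk (hθp P hP), add_zero,
          show α • P = (α - 1) • P + P by module, hzero _ P hα hP, zero_add]
      suffices h : ∀ j : ℕ, (σ ^ j) • P = P from h p
      intro j
      induction j with
      | zero => rw [pow_zero, one_smul]
      | succ j ih => rw [pow_succ', mul_smul, ih, hσP]
  -- the determinant
  have hrep : torRep (Kb := Qb) E p (σ ^ p) = 1 := LinearMap.ext fun x =>
    Subtype.ext (key x (nsmul_of_mem E x))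
  have hdet : LinearMap.det (torRep (Kb := Qb) E p σ) = 1 := by
    have h := congrArg LinearMap.det hrep
    rwa [map_pow, map_pow, ZMod.pow_card, map_one] at h
  haveI : NeZero p := ⟨hp.ne_zero⟩
  haveI : NeZero ((p : ℕ) : Qb) := ⟨Nat.cast_ne_zero.mpr hp.ne_zero⟩
  obtain ⟨ζ, hζ⟩ := HasEnoughRootsOfUnity.exists_primitiveRoot Qb p
  obtain ⟨a, -, ha⟩ := hζ.eq_pow_of_pow_eq_one (ξ := σ ζ)
    (by rw [← map_pow, hζ.pow_eq_one, map_one])
  have hall : ∀ ν : Qb, ν ^ p = 1 → σ ν = ν ^ a := fun ν hν => by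
    obtain ⟨i, -, rfl⟩ := hζ.eq_pow_of_pow_eq_one hν
    rw [map_pow, ← ha, ← pow_mul, ← pow_mul, mul_comm]
  have h := det_torRep E hp σ hall
  rw [hdet, ← Nat.cast_one, ZMod.natCast_eq_natCast_iff'] at h
  rw [hall μ hμ, pow_eq_pow_mod a hμ, ← h, Nat.mod_eq_of_lt hp.one_lt, pow_one]

omit hD hDdf h2 h3 hring in
/-- **In odd degree a root of `± p` in `F (√d)` gives `d = -p`.** -/
theorem eq_neg_prime_of_sqrt_mem (hd : Squarefree d) (hd0 : d < 0) (hodd : Odd (finrank ℚ F))
    {p : ℕ} (hp : p.Prime) {r : Qb} {e : ℤ} (he : e = 1 ∨ e = -1) (he4 : e * p % 4 = 1)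
    (hr : r ^ 2 = ((e * p : ℤ) : Qb))
    (hrM : r ∈ F ⊔ IntermediateField.adjoin ℚ {s}) : d = -(p : ℤ) ∧ p % 4 = 3 := by
  set K : IntermediateField ℚ Qb := IntermediateField.adjoin ℚ {s} with hK
  have hK2 : finrank ℚ K = 2 := FA.Jugendtraum.finrank_adjoin_sqrt hd0 hs
  haveI : FiniteDimensional ℚ K := Module.finite_of_finrank_eq_succ hK2
  haveI : FiniteDimensional ℚ (F ⊔ K : IntermediateField ℚ Qb) :=
    IntermediateField.finiteDimensional_sup _ _
  -- the only quadratic subfield
  have hrK : r ∈ K := by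
    by_contra hrK
    set N : IntermediateField K Qb := IntermediateField.adjoin K {r} with hN
    have hint : IsIntegral K r := (Algebra.IsIntegral.isIntegral (R := ℚ) r).tower_top
    haveI : FiniteDimensional K N := IntermediateField.adjoin.finiteDimensional hint
    have hN2 : finrank K N = 2 := by
      rw [hN, IntermediateField.adjoin.finrank hint]
      refine le_antisymm ?_ ((minpoly.two_le_natDegree_iff hint).mpr ?_)
      · refine (Polynomial.natDegree_le_of_dvd (minpoly.dvd K r (p := Polynomial.X ^ 2 -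
          Polynomial.C ((e * p : ℤ) : K)) (by simp [hr]))
          (Polynomial.X_pow_sub_C_ne_zero two_pos _)).trans_eq Polynomial.natDegree_X_pow_sub_C
      · rintro ⟨x, rfl⟩
        exact hrK x.2
    have hle : N.restrictScalars ℚ ≤ F ⊔ K := by
      intro z hz
      have : N ≤ IntermediateField.extendScalars (le_sup_right : K ≤ F ⊔ K) :=
        IntermediateField.adjoin_simple_le_iff.mpr hrM
      exact this hz
    have h4 : finrank ℚ (N.restrictScalars ℚ) = 4 := by
      rw [show finrank ℚ (N.restrictScalars ℚ) = finrank ℚ N from rfl,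
        ← finrank_mul_finrank ℚ K N, hN2, hK2]
    have h := (IntermediateField.finrank_dvd_of_le_right hle).trans
      (FA.CMDivisibility.finrank_sup_dvd F hd0 hs)
    rw [h4] at h
    obtain ⟨c, hc⟩ := h
    obtain ⟨j, hj⟩ := hodd
    omega
  obtain ⟨a, b, hab⟩ : ∃ a b : ℚ, r = (a : Qb) + (b : Qb) * s := by
    have hr' : r ∈ Algebra.adjoin ℚ ({s} : Set Qb) := by
      rw [← IntermediateField.adjoin_simple_toSubalgebra_of_isAlgebraic
        (Algebra.IsAlgebraic.isAlgebraic s)]
      exact hrK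
    clear hr hrM hrK
    induction hr' using Algebra.adjoin_induction with
    | mem x hx => exact ⟨0, 1, by rw [Set.mem_singleton_iff.mp hx]; simp⟩
    | algebraMap c => exact ⟨c, 0, by simp⟩
    | add x y _ _ hx hy =>
      obtain ⟨a₁, b₁, rfl⟩ := hx
      obtain ⟨a₂, b₂, rfl⟩ := hy
      exact ⟨a₁ + a₂, b₁ + b₂, by push_cast; ring⟩
    | mul x y _ _ hx hy =>
      obtain ⟨a₁, b₁, rfl⟩ := hx
      obtain ⟨a₂, b₂, rfl⟩ := hy
      refine ⟨a₁ * a₂ + b₁ * b₂ * (d : ℚ), a₁ * b₂ + a₂ * b₁, ?_⟩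
      push_cast
      linear_combination (b₁ : Qb) * b₂ * hs
  -- squaring
  have hlin : 2 * (a : Qb) * b * s = ((((e * p : ℤ) : ℚ) - a ^ 2 - b ^ 2 * d : ℚ) : Qb) := by
    push_cast
    rw [hab] at hr
    push_cast at hr
    linear_combination hr - (b : Qb) ^ 2 * hs
  have hp0 : (0 : ℚ) < p := Nat.cast_pos.mpr hp.pos
  have hab0 : a * b = 0 := by
    by_contra hne
    set c : ℚ := ((e * p : ℤ) : ℚ) - a ^ 2 - b ^ 2 * d
    have h4 : c ^ 2 = 4 * (a * b) ^ 2 * d := (Rat.cast_injective (α := Qb)) (by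
      push_cast
      rw [← hlin]
      linear_combination 4 * ((a : Qb) * b) ^ 2 * hs)
    have hd' : (d : ℚ) < 0 := Int.cast_lt_zero.mpr hd0
    nlinarith [sq_nonneg c, mul_pos (mul_pos (show (0 : ℚ) < 4 by norm_num)
      (lt_of_le_of_ne (sq_nonneg (a * b)) (Ne.symm (pow_ne_zero 2 hne)))) (neg_pos.mpr hd')]
  have hrat : ((e * p : ℤ) : ℚ) = a ^ 2 + b ^ 2 * d := by
    have h0 : (((e * p : ℤ) : ℚ) - a ^ 2 - b ^ 2 * d : ℚ) = 0 := (Rat.cast_injective (α := Qb)) (by
      rw [← hlin, Rat.cast_zero, mul_assoc 2, ← Rat.cast_mul, hab0, Rat.cast_zero, mul_zero,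
        zero_mul])
    linarith
  push_cast at hrat
  have hb0 : b ≠ 0 := fun hb => by
    rw [hb, zero_pow two_ne_zero, zero_mul, add_zero] at hrat
    rcases he with rfl | rfl
    · have hsq : IsSquare (p : ℚ) := ⟨a, by rw [← sq, ← hrat]; push_cast; ring⟩
      rw [Rat.isSquare_natCast_iff] at hsq
      exact (show Irreducible p from hp).not_isSquare hsq
    · push_cast at hrat
      nlinarith [sq_nonneg a]
  rw [(mul_eq_zero.1 hab0).resolve_right hb0, zero_pow two_ne_zero, zero_add] at hrat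
  have he' : e = -1 := he.resolve_left fun he1 => by
    rw [he1, Int.cast_one, one_mul] at hrat
    have hd' : (d : ℚ) < 0 := Int.cast_lt_zero.mpr hd0
    nlinarith [lt_of_le_of_ne (sq_nonneg b) (Ne.symm (pow_ne_zero 2 hb0))]
  subst he'
  refine ⟨?_, by omega⟩
  -- the denominator is one
  have hb := b.num_div_den
  have hden : (b.den : ℚ) ≠ 0 := Nat.cast_ne_zero.mpr b.den_ne_zero
  have hZ : b.num ^ 2 * d = -(p : ℤ) * (b.den : ℤ) ^ 2 := by
    have : ((b.num ^ 2 * d : ℤ) : ℚ) = ((-(p : ℤ) * (b.den : ℤ) ^ 2 : ℤ) : ℚ) := by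
      rw [← hb] at hrat
      field_simp at hrat
      push_cast at hrat ⊢
      linarith
    exact_mod_cast this
  have hcop : IsCoprime b.num (b.den : ℤ) :=
    Int.isCoprime_iff_nat_coprime.mpr (by simpa using b.reduced)
  have hv : (b.den : ℤ) = 1 := by
    have hdv : (b.den : ℤ) * b.den ∣ d := by
      rw [← sq]
      exact (hcop.symm.pow (m := 2) (n := 2)).dvd_of_dvd_mul_left ⟨-(p : ℤ), by rw [hZ]; ring⟩
    rcases Int.isUnit_iff.1 (hd _ hdv) with h | h <;> omega
  have hu : b.num ^ 2 = 1 := by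
    rw [hv] at hZ
    have hup : b.num * b.num ∣ (p : ℤ) := ⟨-d, by linear_combination hZ⟩
    rcases Int.isUnit_iff.1 ((Int.squarefree_natCast.mpr hp.squarefree) _ hup) with h | h <;>
      rw [h] <;> norm_num
  rw [hv, hu, one_mul, one_pow, mul_one] at hZ
  exact hZ

/-- **In odd degree a point of odd prime order `p` forces `d = -p`.** -/
theorem eq_neg_prime (hd : Squarefree d) (hd0 : d < 0) (hodd : Odd (finrank ℚ F)) {p : ℕ}
    (hp : p.Prime) (hp2 : p ≠ 2) {Q : (E.toAffine⁄Qb).Point} (hQ : addOrderOf Q = p)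
    (hfixQ : ∀ σ : Qb ≃ₐ[F] Qb, σ • Q = Q) : d = -(p : ℤ) ∧ p % 4 = 3 := by
  haveI := Fact.mk hp
  haveI : IsGalois ℚ Qb := FA.EC.isGalois_algebraicClosure
  set K : IntermediateField ℚ Qb := IntermediateField.adjoin ℚ {s} with hK
  have hK2 : finrank ℚ K = 2 := FA.Jugendtraum.finrank_adjoin_sqrt hd0 hs
  haveI : FiniteDimensional ℚ K := Module.finite_of_finrank_eq_succ hK2
  have hsF : s ∉ F := fun h => by
    have := IntermediateField.finrank_dvd_of_le_right
      (IntermediateField.adjoin_simple_le_iff.mpr h : K ≤ F)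
    rw [hK2] at this
    exact Nat.not_even_iff_odd.2 hodd (even_iff_two_dvd.2 this)
  obtain ⟨r, e, he, he4, hr, hract⟩ := FA.SerreCurve.exists_sqrt_prime_action (p := p) hp2
  have hrM : r ∈ F ⊔ K := by
    rw [← InfiniteGalois.fixedField_fixingSubgroup (F ⊔ K), IntermediateField.mem_fixedField_iff]
    intro g hg
    rw [IntermediateField.mem_fixingSubgroup_iff] at hg
    have hgs : g s = s := hg s ((le_sup_right : K ≤ F ⊔ K)
      (IntermediateField.mem_adjoin_simple_self ℚ s))
    let σ : Qb ≃ₐ[F] Qb := AlgEquiv.ofRingEquiv (f := g.toRingEquiv) fun z =>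
      hg z ((le_sup_left : F ≤ F ⊔ K) z.2)
    have h1 : ∀ μ : Qb, μ ^ p = 1 → g μ = μ ^ 1 := fun μ hμ => by
      rw [pow_one]
      exact root_fixed F E ψ hD hDdf h2 h3 hring hs hsF hp hQ hfixQ (σ := σ) hgs hμ
    rw [hract g 1 h1, Nat.cast_one, jacobiSym.one_left, Int.cast_one, one_mul]
  exact eq_neg_prime_of_sqrt_mem F hs hd hd0 hodd hp he he4 hr hrM

end FA.CMTwist

end
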