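import Fermat.Agent.CMTwist.Main

/-!
# The shape of the torsion subgroup

A square `(ℤ/m)²` among the points over `F` is all the points killed by `m`; and the torsion is
finite where the orders are bounded.
-/

set_option autoImplicit false
set_option linter.style.haveILetI false
set_option linter.unusedSectionVars false

noncomputable section

open WeierstrassCurve FA.IsogenyNF
open FA.CMTorsionBound (upPoint upPoint_injective)
open scoped WeierstrassCurve.Affine Classical

local notation "Qb" => AlgebraicClosure ℚ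

namespace FA.CMTwist

variable {F : IntermediateField ℚ Qb} (E : WeierstrassCurve F) [E.IsElliptic]

/-- The points over `ℚ̄` killed by `m` number `m ^ 2`. -/
theorem ncard_killed {m : ℕ} (hm : m ≠ 0) :
    {Q : (E.toAffine⁄Qb).Point | m • Q = 0}.ncard = m ^ 2 := by
  rw [← Nat.card_coe_set_eq]
  exact FA.EC.natCard_nsmul_eq_zero (E.map (algebraMap F Qb)) (Nat.cast_ne_zero.mpr hm)

/-- **A square among the points over `F` is full level.** -/
theorem full_of_injective [FiniteDimensional ℚ F] {m : ℕ} [NeZero m]
    (φ : ZMod m × ZMod m →+ E.toAffine.Point) (hφ : Function.Injective φ)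
    (σ : Qb ≃ₐ[F] Qb) (Q : (E.toAffine⁄Qb).Point) (hQ : m • Q = 0) : σ • Q = Q := by
  haveI : Algebra.IsAlgebraic F Qb := Algebra.IsAlgebraic.tower_top (K := ℚ) F
  have hinj : Function.Injective ((upPoint E).comp φ) := (upPoint_injective E).comp hφ
  have hsub : Set.range ((upPoint E).comp φ) ⊆ {Q : (E.toAffine⁄Qb).Point | m • Q = 0} := by
    rintro _ ⟨z, rfl⟩
    show m • ((upPoint E).comp φ) z = 0
    rw [← map_nsmul, show m • z = 0 from Prod.ext (by simp) (by simp), map_zero]
  have heq := Set.eq_of_subset_of_ncard_le hsub (by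
    rw [ncard_killed E (NeZero.ne m), Set.ncard_range_of_injective hinj, Nat.card_prod,
      Nat.card_zmod, sq]) (finite_nsmul_eq_zero (W := E) (Kb := Qb) (NeZero.ne m))
  obtain ⟨z, rfl⟩ := heq.ge hQ
  exact FA.CMTorsionAllOrders.smul_upPoint E σ (φ z)

/-- **Bounded orders give finite torsion.** -/
theorem finite_torsion_of_bound [FiniteDimensional ℚ F] {B : ℕ}
    (hB : ∀ P : E.toAffine.Point, IsOfFinAddOrder P → addOrderOf P ≤ B) :
    Finite (AddCommGroup.torsion E.toAffine.Point) := by
  haveI : Algebra.IsAlgebraic F Qb := Algebra.IsAlgebraic.tower_top (K := ℚ) F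
  haveI := (finite_nsmul_eq_zero (W := E) (Kb := Qb) (Nat.factorial_ne_zero B)).to_subtype
  refine Finite.of_injective (fun P : AddCommGroup.torsion E.toAffine.Point =>
    (⟨upPoint E P.1, ?_⟩ : {Q : (E.toAffine⁄Qb).Point | B.factorial • Q = 0}))
    fun P P' h => Subtype.ext (upPoint_injective E (congrArg Subtype.val h))
  show B.factorial • upPoint E P.1 = 0
  rw [← map_nsmul, addOrderOf_dvd_iff_nsmul_eq_zero.mp
    (Nat.dvd_factorial (IsOfFinAddOrder.addOrderOf_pos P.2) (hB _ P.2)), map_zero]

/-- At most four points over `F` are killed by two. -/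
theorem card_two_le [FiniteDimensional ℚ F] :
    Nat.card {x : AddCommGroup.torsion E.toAffine.Point // 2 • x = 0} ≤ 4 := by
  haveI : Algebra.IsAlgebraic F Qb := Algebra.IsAlgebraic.tower_top (K := ℚ) F
  haveI := (finite_nsmul_eq_zero (W := E) (Kb := Qb) two_ne_zero).to_subtype
  refine le_trans (Nat.card_le_card_of_injective
    (fun x => (⟨upPoint E x.1.1, ?_⟩ : {Q : (E.toAffine⁄Qb).Point | 2 • Q = 0}))
    fun x y h => Subtype.ext (Subtype.ext (upPoint_injective E (congrArg Subtype.val h)))) ?_
  · show 2 • upPoint E x.1.1 = 0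
    rw [← map_nsmul, ← AddSubgroup.coe_nsmul, x.2, ZeroMemClass.coe_zero, map_zero]
  · rw [Nat.card_coe_set_eq, ncard_killed E two_ne_zero]
    norm_num

end FA.CMTwist

end
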