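import Fermat.Agent.CMTorsionAllOrders.Action

/-!
# The automorphisms which move the multiplier

An automorphism moving the multiplier sends it to its conjugate `t - ω`, so it carries the
endomorphism `θ` to `t - θ`.
-/

set_option autoImplicit false
set_option linter.style.haveILetI false
set_option linter.unusedSectionVars false

noncomputable section

open WeierstrassCurve FA.Mazur.Wp FA.IsogenyNF FA.CMFields
open scoped WeierstrassCurve.Affine Classical

universe u v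

namespace FA.CMTwist

variable {F : Type u} [Field F] [CharZero F] {Kb : Type v} [Field Kb] [DecidableEq Kb]
  [Algebra F Kb] [CharZero Kb] [IsAlgClosed Kb] [Algebra.IsAlgebraic F Kb]
  {W : WeierstrassCurve F} [W.IsElliptic] {φ : Kb →+* ℂ} {L : PeriodPair}
  {hL : (W.baseChange Kb).map φ = latCurve L}

/-- **An automorphism moving the multiplier carries `θ` to `t - θ`.** -/
theorem smul_twist {ω : ℂ} {ω₀ : Kb} (hω₀ : φ ω₀ = ω)
    (hst : ∀ l ∈ L.lattice, ω * l ∈ L.lattice) {t n : ℤ} (hn : n ≠ 0)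
    (hquad : ω ^ 2 - t * ω + n = 0) {θ : (W.toAffine⁄Kb).Point →+ (W.toAffine⁄Kb).Point}
    (hθ : ∀ P z, unif L z = toC W φ hL P → toC W φ hL (θ P) = unif L (ω * z))
    {σ : Kb ≃ₐ[F] Kb} (hσ : σ ω₀ ≠ ω₀) (P : (W.toAffine⁄Kb).Point) :
    σ • θ P = t • (σ • P) - θ (σ • P) := by
  obtain ⟨τ, hτ⟩ := exists_extension φ σ.toRingEquiv
  have hτ' : ∀ x, τ (φ x) = φ (σ x) := hτ
  have ha : ∀ a : F, τ (φ (algebraMap F Kb a)) = φ (algebraMap F Kb a) := fun a => by
    rw [hτ', σ.commutes]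
  have h2 : τ L.g₂ = L.g₂ := by
    have e : φ (algebraMap F Kb W.a₄) = -L.g₂ / 4 := congrArg WeierstrassCurve.a₄ hL
    rw [show L.g₂ = -4 * φ (algebraMap F Kb W.a₄) by rw [e]; ring, map_mul, map_neg, map_ofNat, ha]
  have h3 : τ L.g₃ = L.g₃ := by
    have e : φ (algebraMap F Kb W.a₆) = -L.g₃ / 4 := congrArg WeierstrassCurve.a₆ hL
    rw [show L.g₃ = -4 * φ (algebraMap F Kb W.a₆) by rw [e]; ring, map_mul, map_neg, map_ofNat, ha]
  have hmap : ∀ R : (W.toAffine⁄Kb).Point,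
      FA.ClassNumberOne.mapPt (τ : ℂ →+* ℂ) (FA.ClassNumberOne.map_latCurve τ h2 h3)
        (toC W φ hL R) = toC W φ hL (σ • R) := fun R => by
    rcases R with _ | ⟨x, y, h⟩
    · rfl
    · exact (Affine.Point.some.injEq ..).mpr ⟨hτ' x, hτ' y⟩
  -- the conjugate
  have hτω : τ ω = t - ω := by
    have h0 : ω₀ ^ 2 - (t : Kb) * ω₀ + (n : Kb) = 0 := φ.injective (by
      rw [map_add, map_sub, map_pow, map_mul, map_intCast, map_intCast, hω₀, map_zero]
      exact hquad)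
    have h1 := congrArg σ h0
    rw [map_add, map_sub, map_pow, map_mul, map_intCast, map_intCast, map_zero] at h1
    have h4 : (σ ω₀ - ω₀) * (σ ω₀ - ((t : Kb) - ω₀)) = 0 := by linear_combination h1 - h0
    rw [← hω₀, hτ', sub_eq_zero.1 ((mul_eq_zero.1 h4).resolve_left (sub_ne_zero.2 hσ)), map_sub,
      map_intCast]
  obtain ⟨z, hz⟩ := exists_preimage (hL := hL) P
  obtain ⟨z', hz'⟩ := exists_preimage (hL := hL) (σ • P)
  refine FA.Frob.mapHom_injective φ hL ?_
  have h := (FA.ClassNumberOne.transport τ h2 h3 hst hn hquad).2 (toC W φ hL P) z'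
    ((hmap P).trans hz'.symm)
  rw [← hz, FA.ClassNumberOne.mulPt_unif, ← hθ P z hz, hmap, hτω] at h
  refine h.trans ?_
  rw [map_sub, map_zsmul, hθ _ _ hz', ← hz', eq_sub_iff_add_eq, ← unif_add, ← unif_int_mul,
    show ((t : ℂ) - ω) * z' + ω * z' = (t : ℂ) * z' by ring]

/-- **The points killed by `n` with the action of all automorphisms.** -/
theorem exists_action_twist (E : WeierstrassCurve F) [E.IsElliptic] (ψ : F →+* ℂ) {D d f : ℤ}
    (hD : D < 0) (hDdf : D = d * f ^ 2) {L : PeriodPair} (hg2 : L.g₂ = ψ E.c₄ / 12)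
    (hg3 : L.g₃ = ψ E.c₆ / 216) (hring : IsMultiplierRing L D) {s : Kb} (hs : s ^ 2 = (d : Kb))
    {n : ℕ} (hn : n ≠ 0) :
    ∃ (θ : (E.toAffine⁄Kb).Point →+ (E.toAffine⁄Kb).Point) (t m : ℤ),
      t ^ 2 - 4 * m = D ∧
      (∀ P : (E.toAffine⁄Kb).Point, n • P = 0 → θ (θ P) = t • θ P - m • P) ∧
      (∀ σ : Kb ≃ₐ[F] Kb, σ s = s → (∀ P, θ (σ • P) = σ • θ P) ∧ ∃ α k : ℤ,
        ∀ P : (E.toAffine⁄Kb).Point, n • P = 0 → σ • P = α • P + k • θ P) ∧
      (∀ σ : Kb ≃ₐ[F] Kb, σ s ≠ s → ∀ P, σ • θ P = t • (σ • P) - θ (σ • P)) ∧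
      ∀ c c' : ℤ, (∀ P : (E.toAffine⁄Kb).Point, n • P = 0 → c • P + c' • θ P = 0) →
        (n : ℤ) ∣ c ∧ (n : ℤ) ∣ c' := by
  letI := ψ.toAlgebra
  let φ : Kb →ₐ[F] ℂ := IsAlgClosed.lift
  have hψ : ∀ c : F, φ (algebraMap F Kb c) = ψ c := φ.commutes
  obtain ⟨Cv, hC⟩ := exists_variableChange E
  haveI : (shortModel E).IsElliptic := hC ▸ inferInstance
  have hC' : Cv.map (algebraMap F Kb) • E.baseChange Kb = (shortModel E).baseChange Kb := by
    simp only [WeierstrassCurve.baseChange, map_variableChange, hC]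
  have hL : ((shortModel E).baseChange Kb).map (φ : Kb →+* ℂ) = latCurve L := by
    ext <;> simp [WeierstrassCurve.baseChange, shortModel, latCurve, hg2, hg3, hψ, map_ofNat] <;>
      ring
  set e := FA.Frob.vcEquiv _ hC' with he_def
  have he : ∀ σ : Kb ≃ₐ[F] Kb, ∀ P, e (σ • P) = σ • e P := fun σ P => vcEquiv_smul hC' σ P
  have he' : ∀ σ : Kb ≃ₐ[F] Kb, ∀ P, e.symm (σ • P) = σ • e.symm P := fun σ P => by
    apply e.injective
    rw [he, e.apply_symm_apply, e.apply_symm_apply]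
  have hs0 := Real.sqrt_pos.mpr (neg_pos.mpr (Int.cast_lt_zero (R := ℝ) |>.mpr hD))
  have hω : ∀ k : ℤ, omega D ≠ k := fun k hk => by
    have := congrArg Complex.im hk
    rw [omega_im, Complex.intCast_im] at this
    linarith
  have hstab : ∀ l ∈ L.lattice, omega D * l ∈ L.lattice := (hring _).2 ⟨0, 1, by simp⟩
  obtain ⟨ω₀, θ, t, m, hω₀, hθ, hquad, hcomm, hθθ, hact, hfaith⟩ :=
    FA.CMRayClass.exists_action_short hL hω hstab
      (FA.CMTorsionAllOrders.primitive_omega hD hring) hn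
  have hD' : t ^ 2 - 4 * m = D := by
    have him := congrArg Complex.im hquad
    have hre := congrArg Complex.re hquad
    simp [omega, sq, Complex.div_ofNat_re, Complex.div_ofNat_im] at him hre
    have ht : (t : ℝ) = D := by nlinarith [hs0]
    have hms := Real.mul_self_sqrt (neg_nonneg.mpr ((Int.cast_nonpos (R := ℝ)).mpr hD.le))
    have : ((t ^ 2 - 4 * m : ℤ) : ℝ) = D := by
      push_cast
      rw [ht] at hre ⊢
      nlinarith [hms]
    exact_mod_cast this
  have hm0 : m ≠ 0 := fun e => by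
    rw [e, mul_zero, sub_zero] at hD'
    nlinarith [sq_nonneg t]
  have hf0 : (f : Kb) ≠ 0 := Int.cast_ne_zero.mpr fun e => by
    rw [e] at hDdf
    simp at hDdf
    omega
  have hroot : ω₀ ^ 2 - (t : Kb) * ω₀ + (m : Kb) = 0 := (φ : Kb →+* ℂ).injective <| by
    rw [map_add, map_sub, map_pow, map_mul, map_intCast, map_intCast, hω₀, map_zero]
    exact hquad
  have hsq : (2 * ω₀ - (t : Kb)) ^ 2 = ((f : Kb) * s) ^ 2 := by
    have h1 : ((t : Kb) ^ 2 - 4 * m : Kb) = (d : Kb) * (f : Kb) ^ 2 := by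
      exact_mod_cast congrArg (Int.cast (R := Kb)) (hD'.trans hDdf)
    linear_combination 4 * hroot + h1 - (f : Kb) ^ 2 * hs
  have hfix : ∀ σ : Kb ≃ₐ[F] Kb, σ s = s → σ ω₀ = ω₀ := fun σ hσ => by
    have hmap : σ (2 * ω₀ - (t : Kb)) = 2 * ω₀ - (t : Kb) := by
      rcases sq_eq_sq_iff_eq_or_eq_neg.1 hsq with e | e <;> rw [e] <;>
        simp [map_mul, map_neg, map_intCast, hσ]
    rw [map_sub, map_mul, map_ofNat, map_intCast, sub_left_inj] at hmap
    exact mul_left_cancel₀ two_ne_zero hmap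
  have hmove : ∀ σ : Kb ≃ₐ[F] Kb, σ s ≠ s → σ ω₀ ≠ ω₀ := fun σ hσ h => hσ (by
    have hmap : σ (2 * ω₀ - (t : Kb)) = 2 * ω₀ - (t : Kb) := by
      rw [map_sub, map_mul, map_ofNat, map_intCast, h]
    rcases sq_eq_sq_iff_eq_or_eq_neg.1 hsq with e | e <;> rw [e] at hmap
    · rw [map_mul, map_intCast] at hmap
      exact mul_left_cancel₀ hf0 hmap
    · rw [map_neg, map_mul, map_intCast, neg_inj] at hmap
      exact mul_left_cancel₀ hf0 hmap)
  refine ⟨(e.toAddMonoidHom.comp θ).comp e.symm.toAddMonoidHom, t, m, hD', fun P hP => ?_,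
    fun σ hσ => ⟨fun P => ?_, ?_⟩, fun σ hσ P => ?_,
    fun c c' hc => hfaith c c' fun P hP => e.injective ?_⟩
  · show e (θ (e.symm (e (θ (e.symm P))))) = t • e (θ (e.symm P)) - m • P
    rw [e.symm_apply_apply, hθθ _ (by rw [← map_nsmul, hP, map_zero]), map_sub, map_zsmul,
      map_zsmul, e.apply_symm_apply]
  · show e (θ (e.symm (σ • P))) = σ • e (θ (e.symm P))
    rw [he', hcomm σ (hfix σ hσ), he]
  · obtain ⟨α, k, hαk⟩ := hact σ (hfix σ hσ)
    refine ⟨α, k, fun P hP => e.symm.injective ?_⟩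
    show e.symm (σ • P) = e.symm (α • P + k • e (θ (e.symm P)))
    rw [he', hαk _ (by rw [← map_nsmul, hP, map_zero]), map_add, map_zsmul, map_zsmul,
      e.symm_apply_apply]
  · show σ • e (θ (e.symm P)) = t • (σ • P) - e (θ (e.symm (σ • P)))
    rw [← he, smul_twist hω₀ hstab hm0 hquad hθ (hmove σ hσ), ← he', map_sub, map_zsmul,
      e.apply_symm_apply]
  · have h := hc (e P) (by rw [← map_nsmul, hP, map_zero])
    change c • e P + c' • e (θ (e.symm (e P))) = 0 at h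
    rw [e.symm_apply_apply] at h
    rwa [map_add, map_zsmul, map_zsmul, map_zero]

end FA.CMTwist

end
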